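import Fermat.Agent.S21.Defs

/-!
# S21, piece B: parabolic elements and vanishing of the period map on them
-/

set_option autoImplicit false

namespace Fermat.Agent.S21

open UpperHalfPlane Filter Topology CongruenceSubgroup ModularCurve ModularCurve.Period
open scoped MatrixGroups ModularForm Manifold

/-- a fixed primitive vector of a matrix of trace `2`. -/
lemma parab_exists_fixed_vector (a b c d : ℤ) (hdet : a * d - b * c = 1) (htr : a + d = 2) :
    ∃ x y : ℤ, IsCoprime x y ∧ (a - 1) * x + b * y = 0 ∧ c * x + (d - 1) * y = 0 := by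
  by_cases h0 : a - 1 = 0 ∧ b = 0
  · obtain ⟨ha, hb⟩ := h0
    refine ⟨0, 1, isCoprime_zero_left.mpr isUnit_one, by simp [hb], ?_⟩
    have : d = 1 := by omega
    simp [this]
  · have hg : (Int.gcd (a - 1) b : ℤ) ≠ 0 := by
      intro h
      apply h0
      have := Int.gcd_eq_zero_iff.mp (by exact_mod_cast h : Int.gcd (a - 1) b = 0)
      exact this
    obtain ⟨u, hu⟩ : (Int.gcd (a - 1) b : ℤ) ∣ a - 1 := Int.gcd_dvd_left _ _
    obtain ⟨v, hv⟩ : (Int.gcd (a - 1) b : ℤ) ∣ b := Int.gcd_dvd_right _ _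
    set g : ℤ := (Int.gcd (a - 1) b : ℤ) with hgdef
    have hcop : IsCoprime u v := by
      have hbez := Int.gcd_eq_gcd_ab (a - 1) b
      rw [← hgdef] at hbez
      refine ⟨Int.gcdA (a - 1) b, Int.gcdB (a - 1) b, ?_⟩
      apply mul_left_cancel₀ hg
      calc g * (Int.gcdA (a - 1) b * u + Int.gcdB (a - 1) b * v)
          = (g * u) * Int.gcdA (a - 1) b + (g * v) * Int.gcdB (a - 1) b := by ring
        _ = g * 1 := by rw [← hu, ← hv, ← hbez, mul_one]
    refine ⟨v, -u, ?_, ?_, ?_⟩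
    · exact (IsCoprime.neg_right hcop.symm)
    · rw [hu, hv]; ring
    · apply mul_left_cancel₀ hg
      have e1 : g * (c * v + (d - 1) * -u) = c * (g * v) - (d - 1) * (g * u) := by ring
      rw [e1, ← hu, ← hv, mul_zero]
      linear_combination htr - hdet

lemma parab_exists_conj_T_of_trace (γ : SL(2, ℤ))
    (h : (γ : Matrix (Fin 2) (Fin 2) ℤ).trace = 2) :
    ∃ (δ : SL(2, ℤ)) (m : ℤ), γ = δ * ModularGroup.T ^ m * δ⁻¹ := by
  have hdet : γ 0 0 * γ 1 1 - γ 0 1 * γ 1 0 = 1 := by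
    have := γ.det_coe
    rwa [Matrix.det_fin_two] at this
  have htr : γ 0 0 + γ 1 1 = 2 := by
    rwa [Matrix.trace_fin_two] at h
  obtain ⟨x, y, hxy, r1, r2⟩ := parab_exists_fixed_vector _ _ _ _ hdet htr
  obtain ⟨δ, hδ0, hδ1⟩ := hxy.exists_SL2_col 0
  have r3 : x * δ 1 1 - δ 0 1 * y = 1 := by
    have := δ.det_coe
    rw [Matrix.det_fin_two, hδ0, hδ1] at this
    exact this
  set s := δ 0 1 with hs
  set t := δ 1 1 with ht
  set a := γ 0 0 with ha
  set b := γ 0 1 with hb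
  set c := γ 1 0 with hc
  set d := γ 1 1 with hd
  refine ⟨δ, t * ((a - 1) * s + b * t) - s * (c * s + (d - 1) * t), ?_⟩
  rw [eq_mul_inv_iff_mul_eq]
  ext i j
  simp only [Matrix.SpecialLinearGroup.coe_mul, ModularGroup.coe_T_zpow, Matrix.mul_apply,
    Fin.sum_univ_two]
  fin_cases i <;> fin_cases j
  · simp only [Fin.zero_eta, Fin.isValue, Fin.mk_one, Matrix.of_apply, Matrix.cons_val', Matrix.cons_val_zero,
      Matrix.cons_val_fin_one, Matrix.cons_val_one, hδ0, hδ1, ← ha, ← hb]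
    linear_combination r1
  · simp only [Fin.zero_eta, Fin.isValue, Fin.mk_one, Matrix.of_apply, Matrix.cons_val', Matrix.cons_val_zero,
      Matrix.cons_val_fin_one, Matrix.cons_val_one, hδ0, hδ1, ← ha, ← hb, ← hs, ← ht]
    linear_combination (-((a - 1) * s + b * t)) * r3 - s ^ 2 * (y * htr - r2) - s * t * (r1 - x * htr)
  · simp only [Fin.zero_eta, Fin.isValue, Fin.mk_one, Matrix.of_apply, Matrix.cons_val', Matrix.cons_val_zero,
      Matrix.cons_val_fin_one, Matrix.cons_val_one, hδ0, hδ1, ← hc, ← hd]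
    linear_combination r2
  · simp only [Fin.zero_eta, Fin.isValue, Fin.mk_one, Matrix.of_apply, Matrix.cons_val', Matrix.cons_val_zero,
      Matrix.cons_val_fin_one, Matrix.cons_val_one, hδ0, hδ1, ← hc, ← hd, ← hs, ← ht]
    linear_combination (-t) * (s * (y * htr - r2) + t * (r1 - x * htr)) - (c * s + (d - 1) * t) * r3

theorem exists_conj_T_of_trace_sq (γ : SL(2, ℤ))
    (h : (γ : Matrix (Fin 2) (Fin 2) ℤ).trace ^ 2 = 4) :
    ∃ (δ : SL(2, ℤ)) (m : ℤ), γ = δ * ModularGroup.T ^ m * δ⁻¹ ∨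
      γ = -(δ * ModularGroup.T ^ m * δ⁻¹) := by
  have h2 : (γ : Matrix (Fin 2) (Fin 2) ℤ).trace = 2 ∨
      (γ : Matrix (Fin 2) (Fin 2) ℤ).trace = -2 := by
    have : ((γ : Matrix (Fin 2) (Fin 2) ℤ).trace - 2) *
        ((γ : Matrix (Fin 2) (Fin 2) ℤ).trace + 2) = 0 := by linear_combination h
    rcases mul_eq_zero.mp this with h | h
    · left; omega
    · right; omega
  rcases h2 with h2 | h2
  · obtain ⟨δ, m, hm⟩ := parab_exists_conj_T_of_trace γ h2
    exact ⟨δ, m, Or.inl hm⟩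
  · obtain ⟨δ, m, hm⟩ := parab_exists_conj_T_of_trace (-γ) (by
      rw [Matrix.SpecialLinearGroup.coe_neg, Matrix.trace_neg, h2]; rfl)
    exact ⟨δ, m, Or.inr (by rw [← hm, neg_neg])⟩

lemma parab_tendsto_T_zpow_smul (m : ℤ) :
    Tendsto (fun w : ℍ => ModularGroup.T ^ m • w) atImInfty atImInfty := by
  rw [atImInfty, tendsto_comap_iff]
  have : (im ∘ fun w : ℍ => ModularGroup.T ^ m • w) = im := by
    funext w
    exact ModularGroup.im_T_zpow_smul w m
  rw [this]
  exact tendsto_comap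

theorem periodMap_mem_parabolicHoms (N : ℕ) [NeZero N] (f : CuspForm (Gamma0 N) 2) :
    periodMap N f ∈ parabolicHoms ℂ (Gamma0 N) ℂ := by
  by_cases hex : ∃ F : ℍ → ℂ, HasEquivariantPrimitive N f F
  · obtain ⟨F', hF'⟩ := hex
    obtain ⟨F, hF, hper⟩ := periodMap_def N f hF'
    rw [hper, mem_parabolicHoms_iff]
    intro γ hγ
    rw [IsEquivariantPrimitive.periodHom_apply]
    obtain ⟨δ, m, hm⟩ := exists_conj_T_of_trace_sq (γ : SL(2, ℤ)) hγ
    obtain ⟨L, hL⟩ := hF.2.2.2 δ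
    have hact : ∀ w : ℍ, (γ : SL(2, ℤ)) • (δ • w) = δ • (ModularGroup.T ^ m • w) := by
      intro w
      rcases hm with hm | hm
      · rw [hm, ← mul_smul, ← mul_smul, inv_mul_cancel_right]
      · rw [hm, ModularGroup.SL_neg_smul, ← mul_smul, ← mul_smul, inv_mul_cancel_right]
    have h1 : ∀ w : ℍ, F (δ • (ModularGroup.T ^ m • w)) - F (δ • w) = hF.2.2.1.period γ := by
      intro w
      rw [← hact]
      exact hF.2.2.1.sub_eq_period γ (δ • w)
    have h2 : Tendsto (fun w : ℍ => F (δ • (ModularGroup.T ^ m • w)) - F (δ • w)) atImInfty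
        (𝓝 (L - L)) := (hL.comp (parab_tendsto_T_zpow_smul m)).sub hL
    simp only [h1, sub_self] at h2
    exact tendsto_nhds_unique tendsto_const_nhds h2
  · have : periodMap N f = 0 := by
      rw [periodMap, dif_neg hex]
    rw [this]
    exact zero_mem _

end Fermat.Agent.S21
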