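import Fermat.Agent.S21.Defs
import Fermat.Prelude.Thm_Subgroup_IsArithmetic_exists_nat_mem_strictPeriods_conj
set_option autoImplicit false
namespace Fermat.Agent.S21
open UpperHalfPlane Filter Topology CongruenceSubgroup ModularCurve ModularCurve.Period
open scoped MatrixGroups ModularForm Manifold Pointwise
open Fermat.Agent.S22


theorem det_mapGL (δ : SL(2, ℤ)) : (Matrix.SpecialLinearGroup.mapGL ℝ δ).val.det = 1 := by
  rw [← Matrix.GeneralLinearGroup.val_det_apply]; simp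

/-- for every `δ ∈ SL(2,ℤ)` the function `w ↦ prim f (δ • w)` differs by a constant from a decaying
primitive of `f ∣[2] δ`. -/
theorem exists_prim_slash (N : ℕ) [NeZero N] (f : CuspForm (Gamma0 N) 2) (δ : SL(2, ℤ)) :
    ∃ (J : ℍ → ℂ) (L : ℂ), IsPrim (⇑f ∣[(2 : ℤ)] δ) J ∧ ∀ w : ℍ, prim f (δ • w) = J w + L := by
  set g : GL (Fin 2) ℝ := Matrix.SpecialLinearGroup.mapGL ℝ δ with hgdef
  have hdet : g.val.det = 1 := det_mapGL δ
  obtain ⟨M, hM, hper⟩ := Subgroup.IsArithmetic.exists_nat_mem_strictPeriods_conj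
    (Gamma0 N : Subgroup (GL (Fin 2) ℝ))
  have hperγ : (M : ℝ) ∈ (ConjAct.toConjAct g⁻¹ • (Gamma0 N : Subgroup (GL (Fin 2) ℝ))).strictPeriods := by
    have := hper δ⁻¹
    rwa [map_inv] at this
  have hMpos : (0 : ℝ) < M := by exact_mod_cast hM
  have hφper : Function.Periodic ((⇑f ∣[(2 : ℤ)] g) ∘ ofComplex) ((M : ℝ) : ℂ) :=
    SlashInvariantFormClass.periodic_comp_ofComplex (SlashInvariantForm.translate f g) hperγ
  obtain ⟨J, hJ, -⟩ := exists_isPrim hMpos hφper
    ((CuspFormClass.holo f).slash _ g) (CuspFormClass.zero_at_infty_slash f δ)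
  refine ⟨J, prim f (δ • UpperHalfPlane.I) - J UpperHalfPlane.I, hJ, fun w => ?_⟩
  have hc := const_of_hasDerivAt_zero (F := fun w => prim f (g • w) - J w) (fun τ => ?_) w
    UpperHalfPlane.I
  · have : prim f (δ • w) = prim f (g • w) := rfl
    rw [this]
    have : prim f (δ • UpperHalfPlane.I) = prim f (g • UpperHalfPlane.I) := rfl
    rw [this]
    linear_combination hc
  · have h1 := hasDerivAt_comp_smul (F := prim f) (g := g) (by rw [hdet]; exact one_pos) τ
      ((isPrim_prim f).1 (g • τ))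
    have h2 := h1.sub (hJ.1 τ)
    have h3 := slash_apply_of_det_pos (⇑f) 0 (g := g) (by rw [hdet]; exact one_pos) τ
    have hz : f (g • τ) * ((g.val.det : ℂ) / denom g τ ^ 2) - (⇑f ∣[(2 : ℤ)] g) τ = 0 := by
      have h4 : (⇑f ∣[(2 : ℤ)] g) τ = (⇑f ∣[((0 : ℕ) : ℤ) + 2] g) τ := by norm_num
      rw [h4, h3, hdet]
      simp
    rw [hz] at h2
    exact h2

theorem prim_smul_of_mem (N : ℕ) [NeZero N] (f : CuspForm (Gamma0 N) 2) (γ : Gamma0 N) :
    ∃ c : ℂ, ∀ z : ℍ, prim f ((γ : SL(2, ℤ)) • z) - prim f z = c := by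
  obtain ⟨J, L, hJ, h⟩ := exists_prim_slash N f γ
  have hf : (⇑f ∣[(2 : ℤ)] (γ : SL(2, ℤ))) = ⇑f :=
    SlashInvariantFormClass.slash_action_eq f _ ⟨γ, γ.2, rfl⟩
  rw [hf] at hJ
  have hJ' : J = prim f := hJ.unique (isPrim_prim f)
  refine ⟨L, fun z => ?_⟩
  rw [h z, hJ']
  ring

theorem hasEquivariantPrimitive (N : ℕ) [NeZero N] (f : CuspForm (Gamma0 N) 2) :
    HasEquivariantPrimitive N f (prim f) := by
  refine ⟨(isPrim_prim f).1, (isPrim_prim f).2, prim_smul_of_mem N f, fun δ => ?_⟩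
  obtain ⟨J, L, hJ, h⟩ := exists_prim_slash N f δ
  refine ⟨L, ?_⟩
  have h1 : Tendsto (fun w => J w + L) atImInfty (𝓝 (0 + L)) := Tendsto.add_const L hJ.2
  rw [zero_add] at h1
  exact h1.congr fun w => (h w).symm

theorem periodMap_apply (N : ℕ) [NeZero N] (f : CuspForm (Gamma0 N) 2) (γ : Gamma0 N) (z : ℍ) :
    periodMap N f (Additive.ofMul γ) = prim f ((γ : SL(2, ℤ)) • z) - prim f z := by
  obtain ⟨F₀, h₀, h⟩ := periodMap_def N f (hasEquivariantPrimitive N f)
  have hF : F₀ = prim f := IsPrim.unique ⟨h₀.1, h₀.2.1⟩ (isPrim_prim f)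
  subst hF
  rw [h, IsEquivariantPrimitive.periodHom_apply, ← h₀.2.2.1.sub_eq_period γ z]

theorem prim_add (N : ℕ) [NeZero N] (f g : CuspForm (Gamma0 N) 2) :
    prim (⇑(f + g)) = prim f + prim g :=
  (isPrim_prim (f + g)).unique ((isPrim_prim f).add (isPrim_prim g))

theorem prim_smul (N : ℕ) [NeZero N] (c : ℂ) (f : CuspForm (Gamma0 N) 2) :
    prim (⇑(c • f)) = c • prim f :=
  (isPrim_prim (c • f)).unique ((isPrim_prim f).smul c)

/-- the period map as a linear map -/
noncomputable def pml (N : ℕ) [NeZero N] :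
    CuspForm (Gamma0 N) 2 →ₗ[ℂ] (Additive (Gamma0 N) →+ ℂ) where
  toFun f := periodMap N f
  map_add' f g := by
    refine AddMonoidHom.ext fun γ => ?_
    have h (F : CuspForm (Gamma0 N) 2) := periodMap_apply N F (Additive.toMul γ) UpperHalfPlane.I
    simp only [ofMul_toMul] at h
    rw [AddMonoidHom.add_apply, h, h, h, prim_add]
    simp only [Pi.add_apply]
    ring
  map_smul' c f := by
    refine AddMonoidHom.ext fun γ => ?_
    have h (F : CuspForm (Gamma0 N) 2) := periodMap_apply N F (Additive.toMul γ) UpperHalfPlane.I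
    simp only [ofMul_toMul] at h
    rw [RingHom.id_apply, AddMonoidHom.smul_apply, h, h, prim_smul]
    simp only [Pi.smul_apply, smul_eq_mul]
    ring

theorem pml_apply (N : ℕ) [NeZero N] (f : CuspForm (Gamma0 N) 2) : pml N f = periodMap N f := rfl

theorem existsPeriodMapLinear (N : ℕ) [NeZero N] : ExistsPeriodMapLinear N :=
  ⟨pml N, fun _ => rfl⟩

theorem periodHomPair_eq (N : ℕ) [NeZero N] :
    periodHomPair N = LinearMap.coprod
        ((LinearMap.id + charInvolution N ℂ ℂ) ∘ₗ pml N)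
        ((LinearMap.id - charInvolution N ℂ ℂ) ∘ₗ pml N) := by
  obtain ⟨p, hp, h⟩ := periodHomPair_def N (existsPeriodMapLinear N)
  have : p = pml N := LinearMap.ext fun f => hp f
  rw [h, this]

end Fermat.Agent.S21
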