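import Fermat.Agent.S21.Defs

/-!
# S21, piece C2 (generic part): injectivity of `f ↦ P_f ± ι P_f`

Everything here is stated relative to hypotheses (an equivariant primitive, the formula for the
period map and the maximum principle `C1`), so that the file only depends on `Defs`.
-/

set_option autoImplicit false

namespace Fermat.Agent.S21.Inj

open UpperHalfPlane Filter Topology CongruenceSubgroup ModularCurve ModularCurve.Period
open scoped MatrixGroups ModularForm Manifold ComplexConjugate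

/-- the reflection `z ↦ -conj z` of the upper half plane. -/
noncomputable def rfl' (z : ℍ) : ℍ := ⟨-conj (z : ℂ), by simpa using z.im_pos⟩

theorem coe_rfl' (z : ℍ) : ((rfl' z : ℍ) : ℂ) = -conj (z : ℂ) := rfl

theorem im_rfl' (z : ℍ) : (rfl' z).im = z.im := by
  change (-conj (z : ℂ)).im = _
  simp

theorem rfl'_rfl' (z : ℍ) : rfl' (rfl' z) = z := by
  apply UpperHalfPlane.ext
  simp [coe_rfl']

theorem tendsto_rfl' : Tendsto rfl' atImInfty atImInfty := by
  rw [atImInfty, tendsto_comap_iff]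
  have : (UpperHalfPlane.im ∘ rfl') = UpperHalfPlane.im := funext im_rfl'
  rw [this]
  exact tendsto_comap

theorem rfl'_smul (γ : SL(2, ℤ)) (z : ℍ) : rfl' (γ • z) = jConjSL γ • rfl' z := by
  apply UpperHalfPlane.ext
  rw [coe_rfl', UpperHalfPlane.coe_specialLinearGroup_apply,
    UpperHalfPlane.coe_specialLinearGroup_apply, coe_rfl']
  simp only [jConjSL_coe, jConjMat_apply_zero_zero, jConjMat_apply_zero_one,
    jConjMat_apply_one_zero, jConjMat_apply_one_one, map_div₀, map_add, map_mul]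
  simp only [Complex.conj_ofReal, map_neg, Complex.ofReal_neg]
  rw [← neg_div]
  congr 1 <;> ring

/-- the "conjugate" function `z ↦ conj (F (-conj z))`. -/
noncomputable def bar (F : ℍ → ℂ) (z : ℍ) : ℂ := conj (F (rfl' z))

theorem differentiableAt_bar {F : ℍ → ℂ}
    (hF : ∀ τ : ℍ, DifferentiableAt ℂ (F ∘ ofComplex) τ) (τ : ℍ) :
    DifferentiableAt ℂ (bar F ∘ ofComplex) τ := by
  have h1 : DifferentiableAt ℂ (fun w : ℂ => (F ∘ ofComplex) (-w)) (conj (τ : ℂ)) := by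
    have := hF (rfl' τ)
    rw [coe_rfl'] at this
    exact DifferentiableAt.comp (g := F ∘ ofComplex) (f := fun w : ℂ => -w) (conj (τ : ℂ)) this
      differentiableAt_id.neg
  have h2 := h1.conj_conj
  rw [Complex.conj_conj] at h2
  refine h2.congr_of_eventuallyEq ?_
  have hop : {w : ℂ | 0 < w.im} ∈ 𝓝 (τ : ℂ) :=
    (isOpen_lt continuous_const Complex.continuous_im).mem_nhds τ.im_pos
  filter_upwards [hop] with w hw
  have hw' : 0 < (-conj w).im := by simpa using hw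
  simp only [Function.comp_apply, bar]
  congr 2
  rw [ofComplex_apply_of_im_pos hw, ofComplex_apply_of_im_pos hw']
  rfl

theorem bar_smul_sub {F : ℍ → ℂ} (γ : SL(2, ℤ)) (z : ℍ) :
    bar F (γ • z) - bar F z = conj (F (jConjSL γ • rfl' z) - F (rfl' z)) := by
  simp only [bar, rfl'_smul, map_sub]

theorem tendsto_bar_smul {F : ℍ → ℂ}
    (hlim : ∀ δ : SL(2, ℤ), ∃ L : ℂ, Tendsto (fun w : ℍ => F (δ • w)) atImInfty (𝓝 L))
    (δ : SL(2, ℤ)) : ∃ L : ℂ, Tendsto (fun w : ℍ => bar F (δ • w)) atImInfty (𝓝 L) := by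
  obtain ⟨L, hL⟩ := hlim (jConjSL δ)
  refine ⟨conj L, ?_⟩
  have h1 := hL.comp tendsto_rfl'
  have h2 := (Complex.continuous_conj.tendsto L).comp h1
  refine h2.congr fun w => ?_
  simp only [Function.comp_apply, bar, rfl'_smul]

/-- The statement of piece C1 (maximum principle). -/
def C1 (N : ℕ) : Prop :=
  ∀ (H : ℍ → ℂ), (∀ τ : ℍ, DifferentiableAt ℂ (H ∘ ofComplex) τ) →
    (∀ γ ∈ Gamma0 N, ∃ c : ℂ, c.re = 0 ∧ ∀ z : ℍ, H (γ • z) - H z = c) →
    (∀ δ : SL(2, ℤ), ∃ L : ℂ, Tendsto (fun w : ℍ => H (δ • w)) atImInfty (𝓝 L)) →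
    ∀ z w : ℍ, H z = H w

/-- generic version: `P + ε ι P = 0` with `ε = ± 1` forces the primitive to be constant. -/
theorem const_of_eps (N : ℕ) (hC1 : C1 N) (F : ℍ → ℂ) (P : Gamma0 N → ℂ)
    (hol : ∀ τ : ℍ, DifferentiableAt ℂ (F ∘ ofComplex) τ)
    (hP : ∀ (γ : Gamma0 N) (z : ℍ), F ((γ : SL(2, ℤ)) • z) - F z = P γ)
    (hlim : ∀ δ : SL(2, ℤ), ∃ L : ℂ, Tendsto (fun w : ℍ => F (δ • w)) atImInfty (𝓝 L))
    (ε : ℝ) (hε : ε ^ 2 = 1)
    (h : ∀ γ : Gamma0 N, P γ + ε * P (jConjGamma0 N γ) = 0) (z w : ℍ) : F z = F w := by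
  have hεc : (ε : ℂ) ^ 2 = 1 := by exact_mod_cast hε
  -- periods of `bar F`
  have hB : ∀ (γ : Gamma0 N) (z : ℍ), bar F ((γ : SL(2, ℤ)) • z) - bar F z
      = conj (P (jConjGamma0 N γ)) := by
    intro γ z
    rw [bar_smul_sub, ← hP (jConjGamma0 N γ) (rfl' z)]
    rfl
  have hPj : ∀ γ : Gamma0 N, (ε : ℂ) * conj (P (jConjGamma0 N γ)) = - conj (P γ) := by
    intro γ
    have := congrArg conj (h γ)
    simp only [map_add, map_mul, Complex.conj_ofReal, map_zero] at this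
    linear_combination this
  have hbar := differentiableAt_bar hol
  have hlimB := tendsto_bar_smul hlim
  -- `H₁ = F + ε B`
  have h1 := hC1 (fun z => F z + ε * bar F z)
    (fun τ => by
      have := (hol τ).add ((hbar τ).const_mul (ε : ℂ))
      exact this)
    (fun γ hγ => ⟨P ⟨γ, hγ⟩ - conj (P ⟨γ, hγ⟩), by simp, fun z => by
      have e1 := hP ⟨γ, hγ⟩ z
      have e2 := hB ⟨γ, hγ⟩ z
      have e3 := hPj ⟨γ, hγ⟩
      simp only at e1 e2
      linear_combination e1 + (ε : ℂ) * e2 + e3⟩)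
    (fun δ => by
      obtain ⟨L, hL⟩ := hlim δ
      obtain ⟨L', hL'⟩ := hlimB δ
      exact ⟨L + ε * L', hL.add (hL'.const_mul _)⟩) z w
  -- `H₂ = -i (F - ε B)`
  have h2 := hC1 (fun z => -Complex.I * (F z - ε * bar F z))
    (fun τ => by
      have := ((hol τ).sub ((hbar τ).const_mul (ε : ℂ))).const_mul (-Complex.I)
      exact this)
    (fun γ hγ => ⟨-Complex.I * (P ⟨γ, hγ⟩ + conj (P ⟨γ, hγ⟩)), by simp, fun z => by
      have e1 := hP ⟨γ, hγ⟩ z
      have e2 := hB ⟨γ, hγ⟩ z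
      have e3 := hPj ⟨γ, hγ⟩
      simp only at e1 e2
      linear_combination (-Complex.I) * e1 + Complex.I * (ε : ℂ) * e2 + Complex.I * e3⟩)
    (fun δ => by
      obtain ⟨L, hL⟩ := hlim δ
      obtain ⟨L', hL'⟩ := hlimB δ
      exact ⟨-Complex.I * (L - ε * L'), (hL.sub (hL'.const_mul _)).const_mul _⟩) z w
  have h3 : F z - ε * bar F z = F w - ε * bar F w :=
    mul_left_cancel₀ (neg_ne_zero.mpr Complex.I_ne_zero) h2
  have : (2 : ℂ) * F z = 2 * F w := by linear_combination h1 + h3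
  exact mul_left_cancel₀ two_ne_zero this

theorem eq_zero_of_const {N : ℕ} (f : CuspForm (Gamma0 N) 2) (F : ℍ → ℂ)
    (hF : ∀ τ : ℍ, HasDerivAt (F ∘ ofComplex) (f τ) ↑τ) (hc : ∀ z w : ℍ, F z = F w) : f = 0 := by
  ext τ
  have h0 : HasDerivAt (F ∘ ofComplex) 0 (τ : ℂ) := by
    have : (F ∘ ofComplex) = fun _ => F τ := funext fun w => hc _ _
    rw [this]
    exact hasDerivAt_const _ _
  simpa using (hF τ).unique h0

/-- generic version of `eq_zero_of_add`, `eq_zero_of_sub`. -/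
theorem eq_zero_of_eps (N : ℕ) (hC1 : C1 N) (f : CuspForm (Gamma0 N) 2) (F : ℍ → ℂ)
    (hF : HasEquivariantPrimitive N f F)
    (hP : ∀ (γ : Gamma0 N) (z : ℍ),
      periodMap N f (Additive.ofMul γ) = F ((γ : SL(2, ℤ)) • z) - F z)
    (ε : ℝ) (hε : ε ^ 2 = 1)
    (h : periodMap N f + (ε : ℂ) • charInvolution N ℂ ℂ (periodMap N f) = 0) : f = 0 := by
  refine eq_zero_of_const f F hF.1 ?_
  refine const_of_eps N hC1 F (fun γ => periodMap N f (Additive.ofMul γ))
    (fun τ => (hF.1 τ).differentiableAt) (fun γ z => (hP γ z).symm) hF.2.2.2 ε hε ?_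
  intro γ
  have := DFunLike.congr_fun h (Additive.ofMul γ)
  simpa using this

end Fermat.Agent.S21.Inj
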