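import Fermat.Agent.S21.HomBoundLA

/-!
# S21, piece D, part 2: the abstract count

An abstract family of cocycles `c g φ : X → ℂ` (linear in `φ ∈ P`), with `c (g h) = h^* c g + c h`,
vanishing on `s²`, `(st)³`, `t^m`, and such that a `φ` whose cocycle is a coboundary vanishes.
Then `dim P + dim V^s + dim V^{st} + dim V^t ≤ |X| + 2`.
-/

set_option autoImplicit false

namespace Fermat.Agent.S21.HomBound

open Module

variable {G X : Type} [Group G] [MulAction G X]
variable {P : Type} [AddCommGroup P] [Module ℂ P]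

structure CocData (s t : G) (m : ℕ) (c : G → P →ₗ[ℂ] (X → ℂ)) : Prop where
  mul : ∀ g h φ x, c (g * h) φ x = c g φ (h • x) + c h φ x
  s2 : ∀ φ, c (s * s) φ = 0
  u3 : ∀ φ, c ((s * t) * ((s * t) * (s * t))) φ = 0
  tm : ∀ φ, c (t ^ m) φ = 0
  m_pos : 0 < m
  inj : ∀ φ (v : X → ℂ), (∀ g x, c g φ x = v (g • x) - v x) → φ = 0
  act_s : ∀ x : X, s • s • x = x
  act_u : ∀ x : X, (s * t) • (s * t) • (s * t) • x = x
  gen : Subgroup.closure {s, t} = ⊤
  trans : ∀ x y : X, ∃ g : G, g • x = y

namespace CocData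

variable {s t : G} {m : ℕ} {c : G → P →ₗ[ℂ] (X → ℂ)}

lemma one (h : CocData s t m c) (φ : P) (x : X) : c 1 φ x = 0 := by
  have := h.mul 1 1 φ x
  rw [mul_one, one_smul] at this
  simpa using this

lemma eq_cob (h : CocData s t m c) (φ : P) (v : X → ℂ)
    (hs : ∀ x, c s φ x = v (s • x) - v x) (ht : ∀ x, c t φ x = v (t • x) - v x)
    (g : G) : ∀ x, c g φ x = v (g • x) - v x := by
  have hg : g ∈ Subgroup.closure {s, t} := by rw [h.gen]; trivial
  induction hg using Subgroup.closure_induction with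
  | mem y hy =>
    rcases hy with rfl | hy
    · exact hs
    · rw [Set.mem_singleton_iff] at hy; subst hy; exact ht
  | one => intro x; rw [h.one, one_smul, sub_self]
  | mul a b _ _ ha hb =>
    intro x
    rw [h.mul, ha, hb, mul_smul]; ring
  | inv a _ ha =>
    intro x
    have h1 := h.mul a a⁻¹ φ x
    rw [mul_inv_cancel, h.one, ha, smul_inv_smul] at h1
    linear_combination -h1

lemma const_of_inv (h : CocData s t m c) (v : X → ℂ)
    (hs : ∀ x, v (s • x) = v x) (ht : ∀ x, v (t • x) = v x) (x y : X) : v x = v y := by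
  have key : ∀ g : G, ∀ x, v (g • x) = v x := by
    intro g
    have hg : g ∈ Subgroup.closure {s, t} := by rw [h.gen]; trivial
    induction hg using Subgroup.closure_induction with
    | mem y hy =>
      rcases hy with rfl | hy
      · exact hs
      · rw [Set.mem_singleton_iff] at hy; subst hy; exact ht
    | one => intro x; rw [one_smul]
    | mul a b _ _ ha hb => intro x; rw [mul_smul, ha, hb]
    | inv a _ ha => intro x; rw [← ha (a⁻¹ • x), smul_inv_smul]
  obtain ⟨g, rfl⟩ := h.trans x y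
  exact (key g x).symm

lemma eq_zero_of (h : CocData s t m c) (φ : P) (hs : c s φ = 0) (ht : c t φ = 0) : φ = 0 := by
  apply h.inj φ 0
  intro g x
  exact h.eq_cob φ 0 (fun x => by rw [hs]; simp) (fun x => by rw [ht]; simp) g x

lemma finite [Finite X] (h : CocData s t m c) : Module.Finite ℂ P := by
  have hinj : Function.Injective ((c s).prod (c t)) := by
    rw [← LinearMap.ker_eq_bot, LinearMap.ker_eq_bot']
    intro φ hφ
    have h1 : c s φ = 0 := congrArg Prod.fst hφ
    have h2 : c t φ = 0 := congrArg Prod.snd hφ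
    exact h.eq_zero_of φ h1 h2
  exact Module.Finite.of_injective _ hinj

end CocData

/-- the map `(a, b, w) ↦ (1 - u^*) b - t^* (1 - s^*) a - (1 - t^*) w`, `u = s t`. -/
noncomputable def Mmap (s t : G) : ((X → ℂ) × (X → ℂ) × (X → ℂ)) →ₗ[ℂ] (X → ℂ) :=
  (LinearMap.id - pull (s * t)) ∘ₗ (LinearMap.fst ℂ _ _ ∘ₗ LinearMap.snd ℂ _ _)
   - (pull t ∘ₗ (LinearMap.id - pull s)) ∘ₗ LinearMap.fst ℂ _ _
   - (LinearMap.id - pull t) ∘ₗ (LinearMap.snd ℂ _ _ ∘ₗ LinearMap.snd ℂ _ _)

lemma Mmap_apply (s t : G) (a b w : X → ℂ) (x : X) :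
    Mmap s t (a, b, w) x
      = (b x - b (s • t • x)) - (a (t • x) - a (s • t • x)) - (w x - w (t • x)) := by
  simp [Mmap, mul_smul]

namespace CocData

variable {s t : G} {m : ℕ} {c : G → P →ₗ[ℂ] (X → ℂ)}

lemma single_sub_mem [DecidableEq X] (h : CocData s t m c) (g : G) :
    ∀ x : X, (Pi.single (g • x) (1 : ℂ) - Pi.single x (1 : ℂ) : X → ℂ)
      ∈ LinearMap.range (Mmap (X := X) s t) := by
  -- the statement for `t` and for `u = s t`
  have ht : ∀ x : X, (Pi.single (t • x) (1 : ℂ) - Pi.single x (1 : ℂ) : X → ℂ)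
      ∈ LinearMap.range (Mmap (X := X) s t) := by
    intro x
    refine ⟨(0, 0, -Pi.single (t • x) (1 : ℂ)), ?_⟩
    funext y
    rw [Mmap_apply]
    simp only [Pi.zero_apply, Pi.neg_apply, Pi.sub_apply, Pi.single_apply, smul_left_cancel_iff]
    ring
  have hu : ∀ x : X, (Pi.single ((s * t) • x) (1 : ℂ) - Pi.single x (1 : ℂ) : X → ℂ)
      ∈ LinearMap.range (Mmap (X := X) s t) := by
    intro x
    refine ⟨(0, Pi.single ((s * t) • x) (1 : ℂ), 0), ?_⟩
    funext y
    rw [Mmap_apply]
    simp only [Pi.zero_apply, Pi.sub_apply, Pi.single_apply, mul_smul, smul_left_cancel_iff]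
    ring
  have hmul : ∀ a b : G,
      (∀ x : X, (Pi.single (a • x) (1 : ℂ) - Pi.single x (1 : ℂ) : X → ℂ)
        ∈ LinearMap.range (Mmap (X := X) s t)) →
      (∀ x : X, (Pi.single (b • x) (1 : ℂ) - Pi.single x (1 : ℂ) : X → ℂ)
        ∈ LinearMap.range (Mmap (X := X) s t)) →
      ∀ x : X, (Pi.single ((a * b) • x) (1 : ℂ) - Pi.single x (1 : ℂ) : X → ℂ)
        ∈ LinearMap.range (Mmap (X := X) s t) := by
    intro a b ha hb x
    have := add_mem (ha (b • x)) (hb x)
    rw [sub_add_sub_cancel] at this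
    rwa [mul_smul]
  have hinv : ∀ a : G,
      (∀ x : X, (Pi.single (a • x) (1 : ℂ) - Pi.single x (1 : ℂ) : X → ℂ)
        ∈ LinearMap.range (Mmap (X := X) s t)) →
      ∀ x : X, (Pi.single (a⁻¹ • x) (1 : ℂ) - Pi.single x (1 : ℂ) : X → ℂ)
        ∈ LinearMap.range (Mmap (X := X) s t) := by
    intro a ha x
    have := neg_mem (ha (a⁻¹ • x))
    rwa [smul_inv_smul, neg_sub] at this
  have hs : ∀ x : X, (Pi.single (s • x) (1 : ℂ) - Pi.single x (1 : ℂ) : X → ℂ)
      ∈ LinearMap.range (Mmap (X := X) s t) := by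
    have := hmul (s * t) t⁻¹ hu (hinv t ht)
    rwa [mul_inv_cancel_right] at this
  have hg : g ∈ Subgroup.closure {s, t} := by rw [h.gen]; trivial
  induction hg using Subgroup.closure_induction with
  | mem y hy =>
    rcases hy with rfl | hy
    · exact hs
    · rw [Set.mem_singleton_iff] at hy; subst hy; exact ht
  | one => intro x; rw [one_smul, sub_self]; exact zero_mem _
  | mul a b _ _ ha hb => exact hmul a b ha hb
  | inv a _ ha => exact hinv a ha

lemma card_le_finrank_range [Fintype X] [DecidableEq X] (h : CocData s t m c) (x₀ : X) :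
    Fintype.card X ≤ finrank ℂ (LinearMap.range (Mmap (X := X) s t)) + 1 := by
  have htop : (⊤ : Submodule ℂ (X → ℂ)) ≤
      LinearMap.range (Mmap (X := X) s t) ⊔ Submodule.span ℂ {(Pi.single x₀ (1 : ℂ) : X → ℂ)} := by
    intro v _
    have hv : v = ∑ x, v x • (Pi.single x (1 : ℂ) : X → ℂ) := by
      funext y
      simp [Finset.sum_apply, Pi.single_apply]
    rw [hv]
    refine Submodule.sum_mem _ fun x _ => Submodule.smul_mem _ _ ?_
    obtain ⟨g, rfl⟩ := h.trans x₀ x
    have h1 := h.single_sub_mem g x₀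
    have h2 : (Pi.single x₀ (1 : ℂ) : X → ℂ) ∈ Submodule.span ℂ {(Pi.single x₀ (1 : ℂ) : X → ℂ)} :=
      Submodule.mem_span_singleton_self _
    have := Submodule.add_mem_sup h1 h2
    rwa [sub_add_cancel] at this
  have h1 := Submodule.finrank_mono htop
  rw [finrank_top, finrank_fintype_fun_eq_card] at h1
  have h2 := Submodule.finrank_add_le_finrank_add_finrank (LinearMap.range (Mmap (X := X) s t))
    (Submodule.span ℂ {(Pi.single x₀ (1 : ℂ) : X → ℂ)})
  have h3 : finrank ℂ (Submodule.span ℂ {(Pi.single x₀ (1 : ℂ) : X → ℂ)}) ≤ 1 := by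
    have := finrank_span_le_card (R := ℂ) ({(Pi.single x₀ (1 : ℂ) : X → ℂ)} : Set (X → ℂ))
    simpa using this
  omega

end CocData

section Lam

variable (s t : G) (m : ℕ) (c : G → P →ₗ[ℂ] (X → ℂ))

noncomputable def L1 : P →ₗ[ℂ] (X → ℂ) := (2⁻¹ : ℂ) • c s

noncomputable def L2 : P →ₗ[ℂ] (X → ℂ) :=
  (3⁻¹ : ℂ) • ((2 : ℂ) • c (s * t) + pull (s * t) ∘ₗ c (s * t))

noncomputable def L3 : P →ₗ[ℂ] (X → ℂ) := ((m : ℂ)⁻¹) • ∑ i ∈ Finset.range m, c (t ^ i)

lemma L1_apply (φ : P) (x : X) : L1 s c φ x = 2⁻¹ * c s φ x := by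
  simp [L1]

lemma L2_apply (φ : P) (x : X) :
    L2 s t c φ x = 3⁻¹ * (2 * c (s * t) φ x + c (s * t) φ (s • t • x)) := by
  simp [L2, mul_smul, mul_add]

lemma L3_apply (φ : P) (x : X) :
    L3 t m c φ x = (m : ℂ)⁻¹ * ∑ i ∈ Finset.range m, c (t ^ i) φ x := by
  simp [L3, LinearMap.sum_apply, Finset.sum_apply]

noncomputable def Lam : (P × (X → ℂ) × Inv (X := X) s × Inv (X := X) (s * t) × Inv (X := X) t)
    →ₗ[ℂ] ((X → ℂ) × (X → ℂ) × (X → ℂ)) where
  toFun d := (L1 s c d.1 + d.2.1 + d.2.2.1, L2 s t c d.1 + d.2.1 + d.2.2.2.1,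
    L3 t m c d.1 + d.2.1 + d.2.2.2.2)
  map_add' := by
    intro d e
    refine Prod.ext ?_ (Prod.ext ?_ ?_)
    · simp only [Prod.fst_add, Prod.snd_add, map_add, Submodule.coe_add]; abel
    · simp only [Prod.fst_add, Prod.snd_add, map_add, Submodule.coe_add]; abel
    · simp only [Prod.fst_add, Prod.snd_add, map_add, Submodule.coe_add]; abel
  map_smul' := by
    intro r d
    refine Prod.ext ?_ (Prod.ext ?_ ?_)
    · simp only [Prod.smul_fst, Prod.smul_snd, map_smul, Submodule.coe_smul, RingHom.id_apply,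
        smul_add]
    · simp only [Prod.smul_fst, Prod.smul_snd, map_smul, Submodule.coe_smul, RingHom.id_apply,
        smul_add]
    · simp only [Prod.smul_fst, Prod.smul_snd, map_smul, Submodule.coe_smul, RingHom.id_apply,
        smul_add]

end Lam

namespace CocData

variable {s t : G} {m : ℕ} {c : G → P →ₗ[ℂ] (X → ℂ)}

lemma f1 (h : CocData s t m c) (φ : P) (y : X) : c s φ (s • y) = - c s φ y := by
  have h1 := h.mul s s φ y
  rw [h.s2] at h1
  simp only [Pi.zero_apply] at h1
  linear_combination -h1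

lemma f2 (h : CocData s t m c) (φ : P) (y : X) :
    c (s * t) φ (s • t • s • t • y) + c (s * t) φ (s • t • y) + c (s * t) φ y = 0 := by
  have h1 := h.mul (s * t) ((s * t) * (s * t)) φ y
  rw [h.u3, h.mul (s * t) (s * t)] at h1
  simp only [Pi.zero_apply, mul_smul] at h1
  linear_combination -h1

lemma f3 (h : CocData s t m c) (φ : P) (y : X) :
    c (s * t) φ y = c s φ (t • y) + c t φ y := h.mul s t φ y

lemma f4 (h : CocData s t m c) (φ : P) (y : X) :
    ∑ i ∈ Finset.range m, c (t ^ i) φ (t • y)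
      = ∑ i ∈ Finset.range m, c (t ^ i) φ y - m * c t φ y := by
  have h1 : ∀ i, c (t ^ i) φ (t • y) = c (t ^ (i + 1)) φ y - c t φ y := by
    intro i
    rw [pow_succ, h.mul]; ring
  simp only [h1]
  rw [Finset.sum_sub_distrib, Finset.sum_const, Finset.card_range, nsmul_eq_mul]
  congr 1
  have h2 := Finset.sum_range_succ (fun i => c (t ^ i) φ y) m
  have h3 := Finset.sum_range_succ' (fun i => c (t ^ i) φ y) m
  rw [h2] at h3
  have h4 : c (t ^ m) φ y = 0 := by rw [h.tm]; rfl
  have h5 : c (t ^ 0) φ y = 0 := by rw [pow_zero]; exact h.one φ y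
  rw [h4, h5] at h3
  linear_combination -h3

lemma Mmap_Lam (h : CocData s t m c)
    (d : P × (X → ℂ) × Inv (X := X) s × Inv (X := X) (s * t) × Inv (X := X) t) :
    Mmap s t (Lam s t m c d) = 0 := by
  obtain ⟨φ, v, i, j, k⟩ := d
  funext x
  have hi := mem_Inv.mp i.2
  have hj := mem_Inv.mp j.2
  have hk := mem_Inv.mp k.2
  have hm : (m : ℂ) ≠ 0 := Nat.cast_ne_zero.mpr h.m_pos.ne'
  show Mmap s t (L1 s c φ + v + (i : X → ℂ), L2 s t c φ + v + (j : X → ℂ),
    L3 t m c φ + v + (k : X → ℂ)) x = 0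
  rw [Mmap_apply]
  simp only [Pi.add_apply, L1_apply, L2_apply, L3_apply]
  have e1 := h.f1 φ (t • x)
  have e2 := h.f2 φ x
  have e3 := h.f3 φ x
  have e4 := h.f4 φ x
  have e5 := hi (t • x)
  have e6 := hj x
  rw [mul_smul] at e6
  have e7 := hk x
  rw [e1, e4, e5, e6, e7, mul_sub, inv_mul_cancel_left₀ hm]
  linear_combination (-(3⁻¹) : ℂ) * e2 + e3

lemma eq_zero_of_Lam (h : CocData s t m c) (x₀ : X)
    (d : P × (X → ℂ) × Inv (X := X) s × Inv (X := X) (s * t) × Inv (X := X) t)
    (hd : Lam s t m c d = 0) (h0 : d.2.1 x₀ = 0) : d = 0 := by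
  obtain ⟨φ, v, i, j, k⟩ := d
  have hi := mem_Inv.mp i.2
  have hj := mem_Inv.mp j.2
  have hk := mem_Inv.mp k.2
  have ha : ∀ y, L1 s c φ y + v y + (i : X → ℂ) y = 0 := fun y =>
    congrFun (congrArg Prod.fst hd) y
  have hb : ∀ y, L2 s t c φ y + v y + (j : X → ℂ) y = 0 := fun y =>
    congrFun (congrArg (fun p => p.2.1) hd) y
  have hw : ∀ y, L3 t m c φ y + v y + (k : X → ℂ) y = 0 := fun y =>
    congrFun (congrArg (fun p => p.2.2) hd) y
  simp only [L1_apply, L2_apply] at ha hb
  have hA : ∀ y, c s φ y = v (s • y) - v y := by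
    intro y
    have e1 := ha y
    have e2 := ha (s • y)
    rw [h.f1, hi] at e2
    linear_combination e1 - e2
  have hB : ∀ y, c (s * t) φ y = v (s • t • y) - v y := by
    intro y
    have e1 := hb y
    have e2 := hb (s • t • y)
    have e3 := hj y
    rw [mul_smul] at e3
    rw [e3] at e2
    have e4 := h.f2 φ y
    linear_combination e1 - e2 + (3⁻¹ : ℂ) * e4
  have hT : ∀ y, c t φ y = v (t • y) - v y := by
    intro y
    have e1 := h.f3 φ y
    rw [hB, hA] at e1
    linear_combination -e1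
  have hφ : φ = 0 := h.inj φ v (fun g x => h.eq_cob φ v hA hT g x)
  subst hφ
  have hv : v = 0 := by
    funext y
    have e1 : ∀ y, v (s • y) = v y := fun y => by
      have := hA y
      rw [map_zero] at this
      simp only [Pi.zero_apply] at this
      linear_combination -this
    have e2 : ∀ y, v (t • y) = v y := fun y => by
      have := hT y
      rw [map_zero] at this
      simp only [Pi.zero_apply] at this
      linear_combination -this
    rw [h.const_of_inv v e1 e2 y x₀]
    exact h0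
  subst hv
  have hi0 : i = 0 := by
    apply Subtype.ext
    funext y
    have := ha y
    simpa using this
  have hj0 : j = 0 := by
    apply Subtype.ext
    funext y
    have := hb y
    simpa using this
  have hk0 : k = 0 := by
    apply Subtype.ext
    funext y
    have := hw y
    simpa using this
  rw [hi0, hj0, hk0]
  rfl

theorem count [Fintype X] [DecidableEq X] (h : CocData s t m c) (x₀ : X) :
    finrank ℂ P + finrank ℂ (Inv (X := X) s) + finrank ℂ (Inv (X := X) (s * t))
      + finrank ℂ (Inv (X := X) t) ≤ Fintype.card X + 2 := by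
  have hfin : Module.Finite ℂ P := h.finite
  -- kernel of `Lam` has dimension at most one
  have hker : finrank ℂ (LinearMap.ker (Lam s t m c)) ≤ 1 := by
    let ev : LinearMap.ker (Lam s t m c) →ₗ[ℂ] ℂ :=
      { toFun := fun d => d.1.2.1 x₀
        map_add' := fun _ _ => rfl
        map_smul' := fun _ _ => rfl }
    have hev : Function.Injective ev := by
      intro d e hde
      have h0 : (d - e).1.2.1 x₀ = 0 := by
        have : d.1.2.1 x₀ = e.1.2.1 x₀ := hde
        show d.1.2.1 x₀ - e.1.2.1 x₀ = 0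
        rw [this, sub_self]
      have h1 : d - e = 0 :=
        Subtype.ext (h.eq_zero_of_Lam x₀ (d - e).1 (LinearMap.mem_ker.mp (d - e).2) h0)
      exact sub_eq_zero.mp h1
    have := LinearMap.finrank_le_finrank_of_injective hev
    simpa using this
  have hrange : finrank ℂ (LinearMap.range (Lam s t m c))
      ≤ finrank ℂ (LinearMap.ker (Mmap (X := X) s t)) := by
    apply Submodule.finrank_mono
    rintro _ ⟨d, rfl⟩
    exact LinearMap.mem_ker.mpr (h.Mmap_Lam d)
  have h1 := LinearMap.finrank_range_add_finrank_ker (Lam s t m c)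
  have h2 := LinearMap.finrank_range_add_finrank_ker (Mmap (X := X) s t)
  have h3 := h.card_le_finrank_range x₀
  simp only [finrank_prod, finrank_fintype_fun_eq_card] at h1 h2
  omega

end CocData

end Fermat.Agent.S21.HomBound
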