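import Fermat.Statements.S21
import Fermat.Agent.S20.Comb
import Fermat.Agent.S21.HomBoundCount

/-!
# S21, piece D: `dim Hom_par(Γ₀(N), ℂ) ≤ 2 g`

Shapiro cocycle `c_φ(g)(x) = φ(κ(g,x))` on `X = SL(2,ℤ) ⧸ H` + the abstract count.
-/

set_option autoImplicit false

namespace Fermat.Agent.S21.HomBound

open Module

section Coc

variable {G : Type} [Group G] (H : Subgroup G)

lemma kap_mem (g : G) (x : G ⧸ H) : (g • x).out⁻¹ * g * x.out ∈ H := by
  rw [mul_assoc, ← QuotientGroup.eq, QuotientGroup.out_eq', ← smul_eq_mul,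
    ← MulAction.Quotient.smul_coe, QuotientGroup.out_eq']

/-- `g * out x = out (g • x) * κ(g, x)` -/
noncomputable def kap (g : G) (x : G ⧸ H) : H := ⟨_, kap_mem H g x⟩

lemma kap_mul (g h : G) (x : G ⧸ H) : kap H (g * h) x = kap H g (h • x) * kap H h x := by
  apply Subtype.ext
  simp only [kap, Subgroup.coe_mul, mul_smul]
  group

lemma coe_kap_of_fixed {g : G} {x : G ⧸ H} (hx : g • x = x) :
    (kap H g x : G) = x.out⁻¹ * g * x.out := by
  simp only [kap, hx]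

/-- the Shapiro cocycle -/
noncomputable def coc (g : G) : (Additive H →+ ℂ) →ₗ[ℂ] ((G ⧸ H) → ℂ) where
  toFun φ x := φ (Additive.ofMul (kap H g x))
  map_add' _ _ := rfl
  map_smul' _ _ := rfl

lemma coc_apply (g : G) (φ : Additive H →+ ℂ) (x : G ⧸ H) :
    coc H g φ x = φ (Additive.ofMul (kap H g x)) := rfl

lemma coc_mul (g h : G) (φ : Additive H →+ ℂ) (x : G ⧸ H) :
    coc H (g * h) φ x = coc H g φ (h • x) + coc H h φ x := by
  rw [coc_apply, coc_apply, coc_apply, kap_mul, ofMul_mul, map_add]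

lemma coc_inj (φ : Additive H →+ ℂ) (v : G ⧸ H → ℂ)
    (h : ∀ g x, coc H g φ x = v (g • x) - v x) : φ = 0 := by
  set x₀ : G ⧸ H := ((1 : G) : G ⧸ H) with hx₀
  have hmem : x₀.out ∈ H := by
    have h1 : ((x₀.out : G) : G ⧸ H) = ((1 : G) : G ⧸ H) := QuotientGroup.out_eq' x₀
    rw [QuotientGroup.eq, mul_one] at h1
    exact (inv_mem_iff).mp h1
  refine AddMonoidHom.ext fun γ' => ?_
  obtain ⟨γ, rfl⟩ := Additive.ofMul.surjective γ'
  have hfix : (γ : G) • x₀ = x₀ := by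
    rw [hx₀, MulAction.Quotient.smul_coe, smul_eq_mul, mul_one, QuotientGroup.eq, mul_one]
    exact inv_mem γ.2
  have h1 := h (γ : G) x₀
  rw [hfix, sub_self, coc_apply] at h1
  have h2 : kap H (γ : G) x₀ = (⟨x₀.out, hmem⟩ : H)⁻¹ * γ * ⟨x₀.out, hmem⟩ := by
    apply Subtype.ext
    rw [coe_kap_of_fixed H hfix]
    rfl
  rw [h2, ofMul_mul, ofMul_mul, ofMul_inv, map_add, map_add, map_neg] at h1
  simpa using h1

end Coc

section SL2

open scoped MatrixGroups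
open ModularGroup ModularCurve ModularCurve.Period

variable (H : Subgroup SL(2, ℤ))

lemma trace_kap_of_fixed {g : SL(2, ℤ)} {x : SL(2, ℤ) ⧸ H} (hx : g • x = x) :
    (((kap H g x : H) : SL(2, ℤ)) : Matrix (Fin 2) (Fin 2) ℤ).trace
      = (g : Matrix (Fin 2) (Fin 2) ℤ).trace := by
  rw [coe_kap_of_fixed H hx, Matrix.SpecialLinearGroup.coe_mul, Matrix.SpecialLinearGroup.coe_mul,
    Matrix.trace_mul_cycle, ← Matrix.SpecialLinearGroup.coe_mul, mul_inv_cancel,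
    Matrix.SpecialLinearGroup.coe_one, one_mul]

lemma coc_eq_zero_of_trace {g : SL(2, ℤ)} (hg : ∀ x : SL(2, ℤ) ⧸ H, g • x = x)
    (htr : (g : Matrix (Fin 2) (Fin 2) ℤ).trace ^ 2 = 4)
    (φ : parabolicHoms ℂ H ℂ) : coc H g φ.1 = 0 := by
  funext x
  rw [coc_apply]
  refine φ.2 _ ?_
  rw [trace_kap_of_fixed H (hg x), htr]

lemma S_mul_S : (S * S : SL(2, ℤ)) = -1 := by decide

lemma ST_cube : ((S * T) * ((S * T) * (S * T)) : SL(2, ℤ)) = -1 := by decide

lemma neg_one_smul' (hneg : (-1 : SL(2, ℤ)) ∈ H) (x : SL(2, ℤ) ⧸ H) :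
    (-1 : SL(2, ℤ)) • x = x := by
  induction x using QuotientGroup.induction_on with
  | H a =>
    rw [MulAction.Quotient.smul_coe, smul_eq_mul, QuotientGroup.eq]
    have : ((-1 : SL(2, ℤ)) * a)⁻¹ * a = -1 := by
      rw [mul_inv_rev, mul_assoc]
      have h1 : ((-1 : SL(2, ℤ)))⁻¹ = -1 := by decide
      rw [h1, neg_one_mul, mul_neg, inv_mul_cancel]
    rw [this]
    exact hneg

lemma trace_neg_one_sq : ((-1 : SL(2, ℤ)) : Matrix (Fin 2) (Fin 2) ℤ).trace ^ 2 = 4 := by decide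

lemma trace_T_pow_sq (m : ℕ) : ((T ^ m : SL(2, ℤ)) : Matrix (Fin 2) (Fin 2) ℤ).trace ^ 2 = 4 := by
  rw [← zpow_natCast, ModularGroup.coe_T_zpow, Matrix.trace_fin_two_of]
  norm_num

/-- the cocycle restricted to parabolic homomorphisms -/
noncomputable def cpar (g : SL(2, ℤ)) : parabolicHoms ℂ H ℂ →ₗ[ℂ] ((SL(2, ℤ) ⧸ H) → ℂ) :=
  coc H g ∘ₗ (parabolicHoms ℂ H ℂ).subtype

lemma cocData [H.FiniteIndex] (hneg : (-1 : SL(2, ℤ)) ∈ H) :
    CocData (X := SL(2, ℤ) ⧸ H) S T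
      (orderOf (MulAction.toPermHom SL(2, ℤ) (SL(2, ℤ) ⧸ H) T)) (cpar H) where
  mul g h φ x := coc_mul H g h φ.1 x
  s2 φ := by
    show coc H (S * S) φ.1 = 0
    rw [S_mul_S]
    exact coc_eq_zero_of_trace H (neg_one_smul' H hneg) trace_neg_one_sq φ
  u3 φ := by
    show coc H ((S * T) * ((S * T) * (S * T))) φ.1 = 0
    rw [ST_cube]
    exact coc_eq_zero_of_trace H (neg_one_smul' H hneg) trace_neg_one_sq φ
  tm φ := by
    refine coc_eq_zero_of_trace H (fun x => ?_) (trace_T_pow_sq _) φ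
    have h1 := pow_orderOf_eq_one (MulAction.toPermHom SL(2, ℤ) (SL(2, ℤ) ⧸ H) T)
    rw [← map_pow] at h1
    have h2 := congrArg (fun e : Equiv.Perm (SL(2, ℤ) ⧸ H) => e x) h1
    simpa using h2
  m_pos := by
    have : Finite (SL(2, ℤ) ⧸ H) := Subgroup.finite_quotient_of_finiteIndex
    exact orderOf_pos _
  inj φ v h := by
    apply Subtype.ext
    exact coc_inj H φ.1 v h
  act_s x := by rw [← mul_smul, S_mul_S]; exact neg_one_smul' H hneg x
  act_u x := by rw [← mul_smul, ← mul_smul, mul_assoc, ST_cube]; exact neg_one_smul' H hneg x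
  gen := SpecialLinearGroup.SL2Z_generators
  trans x y := MulAction.exists_smul_eq _ x y

theorem finite_parabolicHoms_general [H.FiniteIndex] (hneg : (-1 : SL(2, ℤ)) ∈ H) :
    Module.Finite ℂ (parabolicHoms ℂ H ℂ) := by
  have : Finite (SL(2, ℤ) ⧸ H) := Subgroup.finite_quotient_of_finiteIndex
  exact (cocData H hneg).finite

/-- `6 dim Hom_par + 3 ν₂ + 4 ν₃ + 6 c ≤ μ + 12`. -/
theorem finrank_parabolicHoms_general [H.FiniteIndex] (hneg : (-1 : SL(2, ℤ)) ∈ H) :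
    6 * finrank ℂ (parabolicHoms ℂ H ℂ)
      + 3 * Nat.card (MulAction.fixedBy (SL(2, ℤ) ⧸ H) S)
      + 4 * Nat.card (MulAction.fixedBy (SL(2, ℤ) ⧸ H) (S * T))
      + 6 * Nat.card (MulAction.orbitRel.Quotient (Subgroup.zpowers T) (SL(2, ℤ) ⧸ H))
      ≤ H.index + 12 := by
  classical
  have : Finite (SL(2, ℤ) ⧸ H) := Subgroup.finite_quotient_of_finiteIndex
  have : Fintype (SL(2, ℤ) ⧸ H) := Fintype.ofFinite _
  have hd := cocData H hneg
  have h1 := hd.count ((1 : SL(2, ℤ)) : SL(2, ℤ) ⧸ H)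
  have h2 := two_mul_finrank_Inv (X := SL(2, ℤ) ⧸ H) S hd.act_s
  have h3 := three_mul_finrank_Inv (X := SL(2, ℤ) ⧸ H) (S * T) hd.act_u
  have h4 : Nat.card (MulAction.orbitRel.Quotient (Subgroup.zpowers T) (SL(2, ℤ) ⧸ H))
      ≤ finrank ℂ (Inv (X := SL(2, ℤ) ⧸ H) T) := card_orbits_le_finrank_Inv (X := SL(2, ℤ) ⧸ H) T
  have h5 : H.index = Fintype.card (SL(2, ℤ) ⧸ H) := by
    rw [Subgroup.index, Nat.card_eq_fintype_card]
  omega

end SL2

end Fermat.Agent.S21.HomBound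

namespace Fermat.Agent.S21

open CongruenceSubgroup ModularCurve ModularCurve.Period
open scoped MatrixGroups

lemma neg_one_mem_Gamma0 (N : ℕ) : (-1 : SL(2, ℤ)) ∈ Gamma0 N := by
  rw [Gamma0_mem]
  simp

theorem finite_parabolicHoms (N : ℕ) [NeZero N] :
    Module.Finite ℂ (parabolicHoms ℂ (Gamma0 N) ℂ) :=
  HomBound.finite_parabolicHoms_general (Gamma0 N) (neg_one_mem_Gamma0 N)

theorem finrank_parabolicHoms_le (N : ℕ) [NeZero N] :
    (Module.finrank ℂ (parabolicHoms ℂ (Gamma0 N) ℂ) : ℚ) ≤ 2 * genusFormula N := by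
  have h := HomBound.finrank_parabolicHoms_general (Gamma0 N) (neg_one_mem_Gamma0 N)
  rw [Fermat.Agent.S20.card_fixedBy_S, Fermat.Agent.S20.card_fixedBy_ST,
    Fermat.Agent.S20.card_orbits_T, Fermat.Agent.S20.index_Gamma0] at h
  have h' : (6 * (Module.finrank ℂ (parabolicHoms ℂ (Gamma0 N) ℂ) : ℚ) + 3 * (nuTwo N : ℚ)
      + 4 * (nuThree N : ℚ) + 6 * (cuspCount N : ℚ)) ≤ (dedekindPsi N : ℚ) + 12 := by
    exact_mod_cast h
  unfold genusFormula
  linarith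

end Fermat.Agent.S21
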