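import Fermat.Agent.S21.Defs

/-!
# S21, piece C1: a maximum principle on `Γ₀(N) \ ℍ*`
-/

set_option autoImplicit false

namespace Fermat.Agent.S21

open UpperHalfPlane Filter Topology CongruenceSubgroup Function
open scoped MatrixGroups ModularForm Manifold

/-- finite family maximum principle on a disc -/
theorem exists_const_of_family {ι : Type*} [Finite ι] [Nonempty ι] (f : ι → ℂ → ℂ) {r b : ℝ}
    (h_an : ∀ i, DifferentiableOn ℂ (f i) (Metric.ball 0 b)) (hr_nn : 0 ≤ r) (hr_lt : r < b)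
    (hr : ∀ i, ∀ z ∈ Metric.ball (0:ℂ) b, ∃ j, ∃ w ∈ Metric.closedBall (0:ℂ) r,
      ‖f i z‖ ≤ ‖f j w‖) :
    ∃ j, Set.EqOn (f j) (Function.const ℂ (f j 0)) (Metric.ball 0 b) := by
  have hmax : ∀ i, ∃ x ∈ Metric.closedBall (0:ℂ) r,
      IsMaxOn (fun z => ‖f i z‖) (Metric.closedBall (0:ℂ) r) x := fun i =>
    (isCompact_closedBall (0 : ℂ) r).exists_isMaxOn (Metric.nonempty_closedBall.mpr hr_nn)
      ((h_an i).continuousOn.mono <| Metric.closedBall_subset_ball hr_lt).norm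
  choose x hx_mem hx_max using hmax
  obtain ⟨j, hj⟩ := Finite.exists_max (fun i => ‖f i (x i)‖)
  refine ⟨j, ?_⟩
  have : Set.EqOn (f j) (Function.const ℂ (f j (x j))) (Metric.ball 0 b) := by
    apply Complex.eq_const_of_exists_max (h_an j) (Metric.closedBall_subset_ball hr_lt (hx_mem j))
    intro z hz
    obtain ⟨i, w, hw, hw'⟩ := hr j z hz
    exact hw'.trans ((hx_max i hw).trans (hj i))
  rwa [this (Metric.mem_ball_self (hr_nn.trans_lt hr_lt))]

theorem conj_T_pow_mem_Gamma0 (N : ℕ) (δ : SL(2, ℤ)) :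
    δ * ModularGroup.T ^ (N : ℤ) * δ⁻¹ ∈ Gamma0 N := by
  have h1 : ModularGroup.T ^ (N : ℤ) ∈ Gamma N := by
    simpa using ModularGroup_T_pow_mem_Gamma (N : ℤ) (N : ℤ) dvd_rfl
  have h2 := (Gamma_normal N).conj_mem _ h1 δ
  have h3 : Gamma N ≤ Gamma0 N := by
    intro g hg
    rw [Gamma_mem] at hg
    rw [Gamma0_mem]
    exact hg.2.2.1
  exact h3 h2

theorem periodic_of_limit (N : ℕ) (H : ℍ → ℂ)
    (hper : ∀ γ ∈ Gamma0 N, ∃ c : ℂ, c.re = 0 ∧ ∀ z : ℍ, H (γ • z) - H z = c)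
    (hlim : ∀ δ : SL(2, ℤ), ∃ L : ℂ, Tendsto (fun w : ℍ => H (δ • w)) atImInfty (𝓝 L))
    (δ : SL(2, ℤ)) (w : ℍ) : H (δ • ((N : ℝ) +ᵥ w)) = H (δ • w) := by
  obtain ⟨c, -, hc⟩ := hper _ (conj_T_pow_mem_Gamma0 N δ)
  obtain ⟨L, hL⟩ := hlim δ
  have key : ∀ w : ℍ, H (δ • ((N : ℝ) +ᵥ w)) - H (δ • w) = c := by
    intro w
    have := hc (δ • w)
    rw [← mul_smul, inv_mul_cancel_right, mul_smul, modular_T_zpow_smul] at this
    simpa using this
  have ht : Tendsto (fun w : ℍ => (N : ℝ) +ᵥ w) atImInfty atImInfty := by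
    rw [atImInfty, tendsto_comap_iff]
    have : (im ∘ fun w : ℍ => (N : ℝ) +ᵥ w) = im := by
      funext w; simp [vadd_im]
    rw [this]
    exact tendsto_comap
  have h1 : Tendsto (fun w : ℍ => H (δ • ((N : ℝ) +ᵥ w)) - H (δ • w)) atImInfty (𝓝 (L - L)) :=
    (hL.comp ht).sub hL
  have h2 : Tendsto (fun w : ℍ => H (δ • ((N : ℝ) +ᵥ w)) - H (δ • w)) atImInfty (𝓝 c) := by
    simp only [key]; exact tendsto_const_nhds
  have h3 : c = 0 := by
    have := tendsto_nhds_unique h2 h1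
    simpa using this
  have := key w
  rw [h3] at this
  exact sub_eq_zero.mp this

theorem periodic_comp_ofComplex_of_limit (N : ℕ) (H : ℍ → ℂ)
    (hper : ∀ γ ∈ Gamma0 N, ∃ c : ℂ, c.re = 0 ∧ ∀ z : ℍ, H (γ • z) - H z = c)
    (hlim : ∀ δ : SL(2, ℤ), ∃ L : ℂ, Tendsto (fun w : ℍ => H (δ • w)) atImInfty (𝓝 L))
    (δ : SL(2, ℤ)) : Periodic ((fun w : ℍ => H (δ • w)) ∘ ofComplex) (N : ℝ) := by
  intro w
  by_cases! hw : 0 < Complex.im w
  · have : 0 < Complex.im (w + (N : ℝ)) := by simp [hw]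
    simp only [comp_apply, ofComplex_apply_of_im_pos this, ofComplex_apply_of_im_pos hw]
    rw [← periodic_of_limit N H hper hlim δ ⟨w, hw⟩]
    congr 2
    ext
    simp [add_comm]
  · have : Complex.im (w + (N : ℝ)) ≤ 0 := by simpa using hw
    simp only [comp_apply]
    rw [ofComplex_apply_of_im_nonpos this, ofComplex_apply_of_im_nonpos hw]

theorem mdiff_comp_smul (H : ℍ → ℂ)
    (hol : ∀ τ : ℍ, DifferentiableAt ℂ (H ∘ ofComplex) τ) (δ : SL(2, ℤ)) :
    MDiff (fun w : ℍ => H (δ • w)) := by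
  have h1 : MDiff H := fun τ => mdifferentiableAt_iff.mpr (hol τ)
  have h2 : MDiff (fun τ : ℍ ↦ (δ : GL (Fin 2) ℝ) • τ) := mdifferentiable_smul (by simp)
  exact h1.comp h2

theorem const_of_re_invariant (N : ℕ) [NeZero N] (H : ℍ → ℂ)
    (hol : ∀ τ : ℍ, DifferentiableAt ℂ (H ∘ ofComplex) τ)
    (hper : ∀ γ ∈ Gamma0 N, ∃ c : ℂ, c.re = 0 ∧ ∀ z : ℍ, H (γ • z) - H z = c)
    (hlim : ∀ δ : SL(2, ℤ), ∃ L : ℂ, Tendsto (fun w : ℍ => H (δ • w)) atImInfty (𝓝 L))
    (z w : ℍ) : H z = H w := by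
  have hN : (0 : ℝ) < N := by exact_mod_cast Nat.pos_of_ne_zero (NeZero.ne N)
  -- the functions on the disc
  let Hd : SL(2, ℤ) → ℍ → ℂ := fun δ w => H (δ • w)
  let h : SL(2, ℤ) → ℂ → ℂ := fun δ => cuspFunction (N : ℝ) (Hd δ)
  have hperiodic : ∀ δ, Periodic (Hd δ ∘ ofComplex) (N : ℝ) :=
    periodic_comp_ofComplex_of_limit N H hper hlim
  have hbdd : ∀ δ, IsBoundedAtImInfty (Hd δ) := by
    intro δ
    obtain ⟨L, hL⟩ := hlim δ
    exact hL.isBigO_one ℝ
  have hdiff : ∀ δ, DifferentiableOn ℂ (h δ) (Metric.ball 0 1) := fun δ =>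
    differentiableOn_cuspFunction_ball hN (hperiodic δ) (mdiff_comp_smul H hol δ) (hbdd δ)
  have heq : ∀ δ (τ : ℍ), h δ (Periodic.qParam (N : ℝ) τ) = H (δ • τ) := fun δ τ =>
    eq_cuspFunction τ hN.ne' (hperiodic δ)
  -- the finite family
  let rep : SL(2, ℤ) ⧸ Gamma0 N → SL(2, ℤ) := fun x => (x.out)⁻¹
  let f : SL(2, ℤ) ⧸ Gamma0 N → ℂ → ℂ := fun x q => Complex.exp (h (rep x) q)
  have hfd : ∀ x, DifferentiableOn ℂ (f x) (Metric.ball 0 1) := fun x => (hdiff (rep x)).cexp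
  have hr0 : (0 : ℝ) ≤ Real.exp (-Real.pi / N) := (Real.exp_pos _).le
  have hr1 : Real.exp (-Real.pi / N) < 1 := by
    rw [Real.exp_lt_one_iff]
    exact div_neg_of_neg_of_pos (by simpa using Real.pi_pos) hN
  obtain ⟨x, hx⟩ := exists_const_of_family f hfd hr0 hr1 (by
    intro x q hq
    rcases eq_or_ne q 0 with rfl | hq'
    · exact ⟨x, 0, by simpa using hr0, le_rfl⟩
    · have hq1 : ‖q‖ < 1 := mem_ball_zero_iff.mp hq
      let τ : ℍ := ⟨_, Periodic.im_invQParam_pos_of_norm_lt_one hN hq1 hq'⟩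
      have hτ : Periodic.qParam (N : ℝ) τ = q := Periodic.qParam_right_inv hN.ne' hq'
      obtain ⟨g, hg⟩ := ModularGroup.exists_one_half_le_im_smul τ
      -- rep x * g⁻¹ = γ * rep y
      let y : SL(2, ℤ) ⧸ Gamma0 N := QuotientGroup.mk (g * (rep x)⁻¹)
      obtain ⟨γ, hγ⟩ := QuotientGroup.mk_out_eq_mul (Gamma0 N) (g * (rep x)⁻¹)
      have hy : rep x = (γ : SL(2, ℤ)) * rep y * g := by
        have : rep y = (g * (rep x)⁻¹ * γ)⁻¹ := by
          simp only [rep, y]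
          rw [hγ]
        rw [this]
        group
      refine ⟨y, Periodic.qParam (N : ℝ) ((g • τ : ℍ) : ℂ), ?_, ?_⟩
      · rw [mem_closedBall_zero_iff, Periodic.norm_qParam, Real.exp_le_exp]
        have : (1:ℝ)/2 ≤ Complex.im ((g • τ : ℍ) : ℂ) := hg
        rw [div_le_div_iff_of_pos_right hN]
        nlinarith [Real.pi_pos]
      · simp only [f]
        rw [← hτ, heq, heq, Complex.norm_exp, Complex.norm_exp, hy]
        obtain ⟨c, hc0, hc⟩ := hper γ γ.2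
        have := hc (rep y • g • τ)
        rw [mul_smul, mul_smul]
        have h2 : H ((γ : SL(2, ℤ)) • rep y • g • τ) = H (rep y • g • τ) + c := by
          rw [← this]; ring
        rw [h2]
        simp [hc0])
  -- `exp ∘ h` constant implies `h` constant
  have hconst : ∀ q₁ ∈ Metric.ball (0:ℂ) 1, ∀ q₂ ∈ Metric.ball (0:ℂ) 1,
      h (rep x) q₁ = h (rep x) q₂ := by
    intro q₁ hq₁ q₂ hq₂
    refine Metric.isOpen_ball.is_const_of_deriv_eq_zero (convex_ball (0:ℂ) 1).isPreconnected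
      (hdiff (rep x)) ?_ hq₁ hq₂
    intro q hq
    have hd : DifferentiableAt ℂ (h (rep x)) q :=
      (hdiff (rep x) q hq).differentiableAt (Metric.isOpen_ball.mem_nhds hq)
    have h1 : HasDerivAt (f x) (Complex.exp (h (rep x) q) * deriv (h (rep x)) q) q :=
      hd.hasDerivAt.cexp
    have h2 : HasDerivAt (f x) 0 q := by
      have : f x =ᶠ[𝓝 q] fun _ => f x 0 := by
        filter_upwards [Metric.isOpen_ball.mem_nhds hq] with p hp using hx hp
      exact (hasDerivAt_const q (f x 0)).congr_of_eventuallyEq this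
    have h3 := h1.unique h2
    simpa [Complex.exp_ne_zero] using h3
  have hball : ∀ τ : ℍ, Periodic.qParam (N : ℝ) τ ∈ Metric.ball (0:ℂ) 1 := by
    intro τ
    rw [mem_ball_zero_iff]
    exact Periodic.norm_qParam_lt_one hN τ.2
  have hfin : ∀ z w : ℍ, H (rep x • z) = H (rep x • w) := by
    intro z w
    rw [← heq, ← heq]
    exact hconst _ (hball z) _ (hball w)
  have := hfin ((rep x)⁻¹ • z) ((rep x)⁻¹ • w)
  simpa using this

end Fermat.Agent.S21
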