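import Fermat.Agent.S21.InjAux
import Fermat.Agent.S21.Prim
import Fermat.Agent.S21.MaxPrinciple

/-!
# S21, piece C2: injectivity of `f ↦ P_f ± ι P_f`
-/

set_option autoImplicit false

namespace Fermat.Agent.S21

open UpperHalfPlane Filter Topology CongruenceSubgroup ModularCurve ModularCurve.Period
open scoped MatrixGroups ModularForm Manifold

theorem eq_zero_of_add (N : ℕ) [NeZero N] (f : CuspForm (Gamma0 N) 2)
    (h : periodMap N f + charInvolution N ℂ ℂ (periodMap N f) = 0) : f = 0 := by
  refine Inj.eq_zero_of_eps N (fun H h1 h2 h3 => const_of_re_invariant N H h1 h2 h3) f (prim f)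
    (hasEquivariantPrimitive N f) (periodMap_apply N f) 1 (by norm_num) ?_
  simpa using h

theorem eq_zero_of_sub (N : ℕ) [NeZero N] (f : CuspForm (Gamma0 N) 2)
    (h : periodMap N f - charInvolution N ℂ ℂ (periodMap N f) = 0) : f = 0 := by
  refine Inj.eq_zero_of_eps N (fun H h1 h2 h3 => const_of_re_invariant N H h1 h2 h3) f (prim f)
    (hasEquivariantPrimitive N f) (periodMap_apply N f) (-1) (by norm_num) ?_
  simpa [sub_eq_add_neg] using h

end Fermat.Agent.S21
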