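import Fermat.Statements.S21
import Fermat.Agent.S22.Lattice

/-!
# S21 (Eichler–Shimura in weight 2): basic definitions
-/

set_option autoImplicit false

namespace Fermat.Agent.S21

open UpperHalfPlane Filter Topology CongruenceSubgroup
open scoped MatrixGroups ModularForm Manifold

/-- the primitive of `f` on `ℍ` which tends to `0` at `i∞` (junk if it does not exist). -/
noncomputable def prim (f : ℍ → ℂ) : ℍ → ℂ := Fermat.Agent.S22.tower f 0

theorem isPrim_prim {Γ : Subgroup (GL (Fin 2) ℝ)} [Γ.IsArithmetic] {k : ℤ} (f : CuspForm Γ k) :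
    Fermat.Agent.S22.IsPrim f (prim f) :=
  (Fermat.Agent.S22.isTower_cuspForm f).1

end Fermat.Agent.S21
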