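import Mathlib

/-!
# S21, piece D, part 1: abstract linear algebra

`G` a group acting on a finite set `X`; `pull g` is the pull-back of functions along `x ↦ g • x`.
-/

set_option autoImplicit false

namespace Fermat.Agent.S21.HomBound

open Module

section Pull

variable {G X : Type} [Group G] [MulAction G X]

/-- pull-back of functions along `x ↦ g • x` -/
noncomputable def pull (g : G) : (X → ℂ) →ₗ[ℂ] (X → ℂ) :=
  LinearMap.funLeft ℂ ℂ (fun x => g • x)

@[simp] lemma pull_apply (g : G) (v : X → ℂ) (x : X) : pull g v x = v (g • x) := rfl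

/-- functions invariant under `g` -/
noncomputable def Inv (g : G) : Submodule ℂ (X → ℂ) := LinearMap.ker (pull g - LinearMap.id)

lemma mem_Inv {g : G} {v : X → ℂ} : v ∈ Inv g ↔ ∀ x, v (g • x) = v x := by
  rw [Inv, LinearMap.mem_ker, LinearMap.sub_apply, sub_eq_zero, LinearMap.id_apply]
  exact ⟨fun h x => congrFun h x, fun h => funext h⟩

lemma trace_pull [Fintype X] [DecidableEq X] (g : G) :
    LinearMap.trace ℂ (X → ℂ) (pull g) = (Nat.card (MulAction.fixedBy X g) : ℂ) := by
  rw [LinearMap.trace_eq_matrix_trace ℂ (Pi.basisFun ℂ X), Matrix.trace]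
  simp only [Matrix.diag_apply, LinearMap.toMatrix_apply, Pi.basisFun_apply, Pi.basisFun_repr,
    pull_apply, Pi.single_apply]
  rw [Finset.sum_boole, Nat.card_eq_fintype_card, Fintype.card_subtype]
  rfl

lemma two_mul_finrank_Inv [Fintype X] [DecidableEq X] (s : G) (hs : ∀ x : X, s • s • x = x) :
    2 * finrank ℂ (Inv (X := X) s) = Fintype.card X + Nat.card (MulAction.fixedBy X s) := by
  have hproj : LinearMap.IsProj (Inv (X := X) s)
      ((2⁻¹ : ℂ) • (LinearMap.id + pull (X := X) s)) := by
    constructor
    · intro v
      rw [mem_Inv]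
      intro x
      simp [hs, add_comm]
    · intro v hv
      rw [mem_Inv] at hv
      funext x
      simp [hv]
      ring
  have h := hproj.trace
  rw [map_smul, map_add, trace_pull, LinearMap.trace_id, finrank_fintype_fun_eq_card] at h
  have h2 : ((2 * finrank ℂ (Inv (X := X) s) : ℕ) : ℂ)
      = ((Fintype.card X + Nat.card (MulAction.fixedBy X s) : ℕ) : ℂ) := by
    push_cast
    rw [← h, smul_eq_mul]
    ring
  exact_mod_cast h2

lemma three_mul_finrank_Inv [Fintype X] [DecidableEq X] (u : G)
    (hu : ∀ x : X, u • u • u • x = x) :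
    3 * finrank ℂ (Inv (X := X) u) = Fintype.card X + 2 * Nat.card (MulAction.fixedBy X u) := by
  have hproj : LinearMap.IsProj (Inv (X := X) u)
      ((3⁻¹ : ℂ) • (LinearMap.id + pull (X := X) u + pull (X := X) (u * u))) := by
    constructor
    · intro v
      rw [mem_Inv]
      intro x
      simp [hu, mul_smul]
      ring
    · intro v hv
      rw [mem_Inv] at hv
      funext x
      simp [hv, mul_smul]
      ring
  have hfix : MulAction.fixedBy X (u * u) = MulAction.fixedBy X u := by
    ext x
    simp only [MulAction.mem_fixedBy, mul_smul]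
    constructor
    · intro h
      have := hu x
      rw [h] at this
      exact this
    · intro h
      rw [h, h]
  have h := hproj.trace
  rw [map_smul, map_add, map_add, trace_pull, trace_pull, hfix, LinearMap.trace_id,
    finrank_fintype_fun_eq_card] at h
  have h2 : ((3 * finrank ℂ (Inv (X := X) u) : ℕ) : ℂ)
      = ((Fintype.card X + 2 * Nat.card (MulAction.fixedBy X u) : ℕ) : ℂ) := by
    push_cast
    rw [← h, smul_eq_mul]
    ring
  exact_mod_cast h2

lemma card_orbits_le_finrank_Inv [Finite X] (t : G) :
    Nat.card (MulAction.orbitRel.Quotient (Subgroup.zpowers t) X) ≤ finrank ℂ (Inv (X := X) t) := by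
  classical
  haveI : Fintype X := Fintype.ofFinite X
  haveI : Fintype (MulAction.orbitRel.Quotient (Subgroup.zpowers t) X) := Fintype.ofFinite _
  let f : (MulAction.orbitRel.Quotient (Subgroup.zpowers t) X → ℂ) →ₗ[ℂ] (Inv (X := X) t) :=
    LinearMap.codRestrict _
      (LinearMap.funLeft ℂ ℂ (fun x : X =>
        (Quotient.mk'' x : MulAction.orbitRel.Quotient (Subgroup.zpowers t) X))) (by
      intro v
      rw [mem_Inv]
      intro x
      simp only [LinearMap.funLeft_apply]
      congr 1
      apply Quotient.sound'
      rw [MulAction.orbitRel_apply]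
      exact ⟨⟨t, Subgroup.mem_zpowers t⟩, rfl⟩)
  have hf : Function.Injective f := by
    intro v w h
    funext q
    induction q using Quotient.inductionOn' with
    | h x =>
      have := congrFun (congrArg Subtype.val h) x
      simpa [f] using this
  have := LinearMap.finrank_le_finrank_of_injective hf
  rwa [finrank_fintype_fun_eq_card, ← Nat.card_eq_fintype_card] at this

end Pull

end Fermat.Agent.S21.HomBound
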